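import Fermat.Agent.LT.T3.EKSpec

/-!
# Row LT, tower T3, station T3.18a `AbelSatakeC` -- THE CUT (sub-architect helper736)

OFF-MAIN.  Definitions and frozen Props only (the proved top is `ASTop.lean`).  No hole, no opaque
constant, nothing assumed.  Vocabulary: `LT/H556/A0.lean`, `LT/T3/Spec.lean`, `LT/T3/EKSpec.lean`
(byte-identical copies of origin/helper14@62b2e4958).

`T3.AbelSatakeC K` (EKSpec.lean) is cut into FIVE leaves, two LOCAL (no adeles) and three GLOBAL: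

| leaf | Prop | content | size |
|---|---|---|---|
| AS.1 | `SatakeLocC K` | p-adic place `v`: for every symmetric finitely supported `A` on `ℤ²` a bi-`GL₂(𝒪_v)`-invariant `f₀` on `GL₂(K_v)` of finite support mod `GL₂(𝒪_v)` with `N`-integral `q^{-(m₁+m₂)/2} A(m₁,m₂)` and Hecke eigenvalue `∑ A(m) z₁^{m₁} z₂^{m₂}` | 3k |
| AS.2 | `AbelCplxC` | `GL₂(ℂ)`, MATHLIB ONLY (= registry T3.17): for every symmetric `β ∈ C_c^∞(ℝ²)` a continuous bi-`U(2)`-invariant `F` of compact support with `N`-integral `|c₁ c₂| β(log|c₁|, log|c₂|)` acting on the functions of parameter `0` by `κ_ℂ ∫β` | 3k |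
| AS.3 | `PureRegC K` | the pure tensor `pureFn` is continuous, of compact support, bi-invariant, supported at `S'` | 1k |
| AS.4 | `NIntC K` | adelic `N`-integral of a pure tensor = `κ(g,g') Φ(Δ(g,g') + j c₀)` (Iwasawa, module of ideles, product formula, splitting of `𝔸_K` at `S'`) | 3k |
| AS.5 | `ROpC K` | `R(pureFn) φ = κ₁ (∑ A(m) z^m) (∏_w C_w) φ` (splitting of `GL₂(𝔸_K)` at `S'`, coset sums at `v₀`, iterated integrals at the infinite places) | 3k |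

`ASTop.lean`: `abelSatake_of : SatakeLocC K → AbelCplxC → PureRegC K → NIntC K → ROpC K →
AbelSatakeC K` (PROVED there).

## Conventions (all checked against the header of EKSpec.lean)

* `ordv c = - log (Valued.v c)`: a uniformiser has `ordv = 1`.
* `upperGL c₁ c₂ x = [[c₁, x], [0, c₂]]`.
* p-adic `N`-integral, any Haar measure `ν₀` of `K_v`:
  `∫ f₀ [[c₁, x], [0, c₂]] dν₀(x) = ν₀(𝒪_v) q^{-(m₁+m₂)/2} A(m₁, m₂)`, `m_i = ordv c_i`.
  Check `f₀ = 1_{K diag(ϖ,1) K}`, `A = √q (δ_{(1,0)} + δ_{(0,1)})`: `(c₁,c₂) = (ϖ,1)`: `x ∈ 𝒪`,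
  integral `ν₀(𝒪) = ν₀(𝒪) q^{-1/2} √q`; `(c₁,c₂) = (1,ϖ)`: the same.
* complex `N`-integral, Lebesgue measure of `ℂ`:
  `∫ F [[c₁, x], [0, c₂]] dx = |c₁| |c₂| β(log |c₁|, log |c₂|)` (the module of `ℂ` is `|·|²`).
  `F(x) = F₀(d(x), log |det x|)`, `cosh d = tr(x x*) / (2 |det x|)`,
  `F₀(r, c) = - ∂_u β̃(r, c) / (2π sinh r)`, `β̃(u, c) = β((c+u)/2, (c-u)/2)` (memo helper14 §5).
* action at a complex place: `∫ Ψ(y h) F(h) dμ_ℂ(h) = κ_ℂ (∫_{ℝ²} β) Ψ(y)` for `Ψ` continuous,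
  right invariant under `U(2)` and the positive scalars, with the mean value property of
  parameter `0` (`A0.MeanValueComplex`); `κ_ℂ` depends on the Haar measure `μ_ℂ` only.
  Proof: Cartan decomposition `h = k₁ torus(d) k₂ z`, `dμ_ℂ = c sinh² d dd dk₁ dk₂ d^×z`,
  `∫_{U(2)} Ψ(y k torus d) dk = (d / sinh d) Ψ(y)` (the mean value property),
  `∫₀^∞ F₀(r,c) r sinh r dr = (1/2π) ∫₀^∞ β̃(r,c) dr` (one integration by parts),
  `∫∫ β̃ du dc = 2 ∫_{ℝ²} β`.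
* product formula used by AS.4: `q^{-n/2} ∏_w |α|_w = 1` for `(α) = 𝔭_{v₀}ⁿ`, `K` totally complex.
-/

set_option autoImplicit false

open IsDedekindDomain NumberField MeasureTheory
open Fermat.Agent.LT.H556.A0

noncomputable section

namespace Fermat.Agent.LT.T3.AS

/-! ## 0. Vocabulary -/

/-- The upper triangular matrix `[[c₁, x], [0, c₂]]`. -/
def upperGL {R : Type*} [CommRing R] (c₁ c₂ : Rˣ) (x : R) : GL (Fin 2) R :=
  ⟨!![(c₁ : R), x; 0, (c₂ : R)],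
    !![((c₁⁻¹ : Rˣ) : R), -(((c₁⁻¹ : Rˣ) : R) * x * ((c₂⁻¹ : Rˣ) : R)); 0, ((c₂⁻¹ : Rˣ) : R)],
    by
      ext i j; fin_cases i <;> fin_cases j <;>
        simp [Matrix.mul_apply, Fin.sum_univ_two, mul_assoc],
    by
      ext i j
      fin_cases i <;> fin_cases j
      · simp [Matrix.mul_apply, Fin.sum_univ_two]
      · simp only [Matrix.mul_apply, Fin.sum_univ_two]
        simp
      · simp [Matrix.mul_apply, Fin.sum_univ_two]
      · simp [Matrix.mul_apply, Fin.sum_univ_two]⟩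

theorem upperGL_coe {R : Type*} [CommRing R] (c₁ c₂ : Rˣ) (x : R) :
    ((upperGL c₁ c₂ x : GL (Fin 2) R) : Matrix (Fin 2) (Fin 2) R) = !![(c₁ : R), x; 0, (c₂ : R)] :=
  rfl

variable (K : Type) [Field K] [NumberField K]

/-- The component at the infinite place `w`, in `ℂ`. -/
def infHom (w : InfinitePlace K) : Adl K →+* ℂ :=
  (InfinitePlace.Completion.extensionEmbedding w).comp
    ((Pi.evalRingHom (fun v : InfinitePlace K => v.Completion) w).comp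
      (RingHom.fst (InfiniteAdeleRing K) (FiniteAdeleRing (𝓞 K) K)))

/-- The component at the finite place `v`. -/
def finHom (v : HeightOneSpectrum (𝓞 K)) : Adl K →+* v.adicCompletion K :=
  (RestrictedProduct.evalRingHom (fun v : HeightOneSpectrum (𝓞 K) => v.adicCompletion K) v).comp
    (RingHom.snd (InfiniteAdeleRing K) (FiniteAdeleRing (𝓞 K) K))

/-- The component of `g ∈ GL₂(𝔸_K)` at the infinite place `w`, in `GL₂(ℂ)`. -/
def infGL (w : InfinitePlace K) : G K →* GL (Fin 2) ℂ :=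
  Matrix.GeneralLinearGroup.map (infHom K w)

/-- The component of `g ∈ GL₂(𝔸_K)` at the finite place `v`, in `GL₂(K_v)`. -/
def finGL (v : HeightOneSpectrum (𝓞 K)) : G K →* GL (Fin 2) (v.adicCompletion K) :=
  Matrix.GeneralLinearGroup.map (finHom K v)

theorem infGL_coe (w : InfinitePlace K) (g : G K) :
    ((infGL K w g : GL (Fin 2) ℂ) : Matrix (Fin 2) (Fin 2) ℂ) = infComp w g := rfl

theorem finGL_coe (v : HeightOneSpectrum (𝓞 K)) (g : G K) :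
    ((finGL K v g : GL (Fin 2) (v.adicCompletion K)) :
      Matrix (Fin 2) (Fin 2) (v.adicCompletion K)) = finComp v g := rfl

/-- At every finite place `v ≠ v₀` the component of `h` lies in `U(𝔫)_v`
(the condition of `T3.IsSuppAt`). -/
def OutsideU (𝔫 : Ideal (𝓞 K)) (v₀ : HeightOneSpectrum (𝓞 K)) (h : G K) : Prop :=
  ∀ v : HeightOneSpectrum (𝓞 K), v ≠ v₀ → ∀ i j : Fin 2,
    (finComp v h - 1) i j ∈ idealClosure 𝔫 v ∧ (finComp v h⁻¹ - 1) i j ∈ idealClosure 𝔫 v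

open Classical in
/-- THE PURE TENSOR `f₀ ⊗ ⊗_w F_w ⊗ 1_{U^{S'}}`, `S' = {v₀} ∪ S_∞`. -/
def pureFn (𝔫 : Ideal (𝓞 K)) (v₀ : HeightOneSpectrum (𝓞 K))
    (f₀ : GL (Fin 2) (v₀.adicCompletion K) → ℂ) (F : InfinitePlace K → GL (Fin 2) ℂ → ℂ)
    (h : G K) : ℂ :=
  if OutsideU K 𝔫 v₀ h then f₀ (finGL K v₀ h) * ∏ w : InfinitePlace K, F w (infGL K w h) else 0

/-- The pure tensor on the coordinate group: `Φ(m, x) = A(m) ∏_w β_w(x_w)`. -/
def pureCoord (A : ℤ × ℤ → ℂ) (β : InfinitePlace K → ℝ × ℝ → ℂ) : Coord K → ℂ :=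
  fun p => A p.1 * ∏ w : InfinitePlace K, β w (p.2 w)

/-- The Laurent polynomial `∑_m A(m) z₁^{m₁} z₂^{m₂}`. -/
def laurent (A : ℤ × ℤ → ℂ) (z₁ z₂ : ℂ) : ℂ :=
  ∑ᶠ m : ℤ × ℤ, A m * z₁ ^ m.1 * z₂ ^ m.2

/-- `A` is finitely supported and symmetric. -/
def IsSymFin (A : ℤ × ℤ → ℂ) : Prop :=
  (Function.support A).Finite ∧ ∀ m₁ m₂ : ℤ, A (m₁, m₂) = A (m₂, m₁)

/-- `β` is smooth, compactly supported and symmetric. -/
def IsSymBump (β : ℝ × ℝ → ℂ) : Prop :=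
  ContDiff ℝ ((⊤ : ℕ∞) : WithTop ℕ∞) β ∧ HasCompactSupport β ∧ ∀ x y : ℝ, β (x, y) = β (y, x)

/-! ## 1. The p-adic place -/

section Padic

variable {K}
variable (v : HeightOneSpectrum (𝓞 K))

/-- The additive valuation (junk value at `0`): a uniformiser has `ordv = 1`. -/
def ordv (c : v.adicCompletion K) : ℤ := - WithZero.log (Valued.v c)

/-- `g ∈ GL₂(𝒪_v)`. -/
def IsIntGL (g : GL (Fin 2) (v.adicCompletion K)) : Prop :=
  ∀ i j : Fin 2,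
    (g : Matrix (Fin 2) (Fin 2) (v.adicCompletion K)) i j ∈ v.adicCompletionIntegers K ∧
    ((g⁻¹ : GL (Fin 2) (v.adicCompletion K)) : Matrix (Fin 2) (Fin 2) (v.adicCompletion K)) i j
      ∈ v.adicCompletionIntegers K

/-- `f₀` is bi-invariant under `GL₂(𝒪_v)`. -/
def IsBiIntInv (f₀ : GL (Fin 2) (v.adicCompletion K) → ℂ) : Prop :=
  ∀ k k' g : GL (Fin 2) (v.adicCompletion K), IsIntGL v k → IsIntGL v k' →
    f₀ (k * g * k') = f₀ g

/-- `R` is a system of representatives of cosets `h GL₂(𝒪_v)` which covers the support of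
`f₀` (pairwise inequivalent; cosets on which `f₀ = 0` are allowed). -/
def IsRepSys (f₀ : GL (Fin 2) (v.adicCompletion K) → ℂ)
    (R : Finset (GL (Fin 2) (v.adicCompletion K))) : Prop :=
  (∀ h ∈ R, ∀ h' ∈ R, IsIntGL v (h⁻¹ * h') → h = h') ∧
    ∀ g : GL (Fin 2) (v.adicCompletion K), f₀ g ≠ 0 → ∃ h ∈ R, IsIntGL v (h⁻¹ * g)

/-- The local form of `A0.IsHeckeCosetSystem`: a full system of representatives of
`GL₂(𝒪_v) diag(ϖ,1) GL₂(𝒪_v) / GL₂(𝒪_v)`. -/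
def IsLocCosetSys (H : Finset (GL (Fin 2) (v.adicCompletion K))) : Prop :=
  H.card = Ideal.absNorm v.asIdeal + 1 ∧
    (∀ h ∈ H, (∀ i j : Fin 2,
        (h : Matrix (Fin 2) (Fin 2) (v.adicCompletion K)) i j ∈ v.adicCompletionIntegers K) ∧
      Valued.v (h : Matrix (Fin 2) (Fin 2) (v.adicCompletion K)).det = WithZero.exp (-1 : ℤ)) ∧
    ∀ h ∈ H, ∀ h' ∈ H, h ≠ h' → ¬ ∀ i j : Fin 2,
      ((h⁻¹ * h' : GL (Fin 2) (v.adicCompletion K)) :
        Matrix (Fin 2) (Fin 2) (v.adicCompletion K)) i j ∈ v.adicCompletionIntegers K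

/-- The local form of `A0.IsHeckeEigenAt` for a right `GL₂(𝒪_v)`-invariant function on
`GL₂(K_v)`: `T_v Φ₀ = √q a Φ₀`, `S_v Φ₀ = b Φ₀`. -/
structure IsLocEigen (Φ₀ : GL (Fin 2) (v.adicCompletion K) → ℂ) (a b : ℂ) : Prop where
  right_inv : ∀ k y : GL (Fin 2) (v.adicCompletion K), IsIntGL v k → Φ₀ (y * k) = Φ₀ y
  hecke : ∀ H : Finset (GL (Fin 2) (v.adicCompletion K)), IsLocCosetSys v H →
    ∀ y : GL (Fin 2) (v.adicCompletion K), ∑ h ∈ H, Φ₀ (y * h)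
      = ((Real.sqrt (Ideal.absNorm v.asIdeal : ℝ) : ℝ) : ℂ) * a * Φ₀ y
  scalar : ∀ (z : GL (Fin 2) (v.adicCompletion K)) (c : v.adicCompletion K),
    Valued.v c = WithZero.exp (-1 : ℤ) →
    (z : Matrix (Fin 2) (Fin 2) (v.adicCompletion K)) = Matrix.diagonal (fun _ => c) →
    ∀ y : GL (Fin 2) (v.adicCompletion K), Φ₀ (y * z) = b * Φ₀ y

/-- The `N`-integral of `f₀` is the Satake coefficient `A` (any Haar measure of `K_v`). -/
def HasSatakeN (f₀ : GL (Fin 2) (v.adicCompletion K) → ℂ) (A : ℤ × ℤ → ℂ) : Prop :=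
  letI : MeasurableSpace (v.adicCompletion K) := borel (v.adicCompletion K)
  ∀ ν₀ : Measure (v.adicCompletion K), ν₀.IsAddHaarMeasure →
    ∀ c₁ c₂ : (v.adicCompletion K)ˣ,
      ∫ x, f₀ (upperGL c₁ c₂ x) ∂ν₀
        = ((ν₀ (v.adicCompletionIntegers K : Set (v.adicCompletion K))).toReal : ℂ)
          * (((Ideal.absNorm v.asIdeal : ℝ) ^
              (-(((ordv v (c₁ : v.adicCompletion K) + ordv v (c₂ : v.adicCompletion K) : ℤ) : ℝ))
                / 2) : ℝ) : ℂ)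
          * A (ordv v (c₁ : v.adicCompletion K), ordv v (c₂ : v.adicCompletion K))

/-- The Hecke eigenvalue of `f₀` is the Laurent polynomial of `A` at the Satake parameters. -/
def HasSatakeEigen (f₀ : GL (Fin 2) (v.adicCompletion K) → ℂ) (A : ℤ × ℤ → ℂ) : Prop :=
  ∀ (Φ₀ : GL (Fin 2) (v.adicCompletion K) → ℂ) (a b z₁ z₂ : ℂ), IsLocEigen v Φ₀ a b →
    z₁ + z₂ = a → z₁ * z₂ = b → b ≠ 0 →
    ∀ R : Finset (GL (Fin 2) (v.adicCompletion K)), IsRepSys v f₀ R →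
      ∀ y : GL (Fin 2) (v.adicCompletion K),
        ∑ h ∈ R, f₀ h * Φ₀ (y * h) = laurent A z₁ z₂ * Φ₀ y

/-- The local Satake pair `(f₀, A)` at `v`. -/
structure IsSatakePair (f₀ : GL (Fin 2) (v.adicCompletion K) → ℂ) (A : ℤ × ℤ → ℂ) : Prop where
  bi_inv : IsBiIntInv v f₀
  fin_supp : ∃ R : Finset (GL (Fin 2) (v.adicCompletion K)), IsRepSys v f₀ R
  n_int : HasSatakeN v f₀ A
  eigen : HasSatakeEigen v f₀ A

end Padic

/-- **AS.1 (p-adic place; Satake).**  For every finite place `v` and every symmetric finitely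
supported `A` there is a Satake pair `(f₀, A)`.
Construction: `T_{k,m} = 1{h ∈ ϖ^m M₂(𝒪) : ordv (det h) = k + 2m}` (`k ≥ 0`, `m ∈ ℤ`) has
`N`-integral `ν₀(𝒪) q^{-m}` on `{m₁, m₂ ≥ m, m₁ + m₂ = k + 2m}`, i.e.
`A_{k,m} = q^{k/2} 1{m₁, m₂ ≥ m, m₁ + m₂ = k + 2m}`; the `A_{k,m}` span the symmetric finitely
supported functions (`A_{k,m} - q A_{k-2,m+1}` is supported on `{(m, m+k), (m+k, m)}`);
`T_{k,m}` acts by `q^{k/2} h_k(z₁,z₂) (z₁ z₂)^m` by the Hecke recursion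
`T_{1,0} T_{k,0} = T_{k+1,0} + q T_{0,1} T_{k-1,0}` (`h_k` = complete homogeneous polynomial).
[Cartier, Corvallis I §4; Bump §4.6; Shimura, Introduction, Thm 3.24.] -/
def SatakeLocC : Prop :=
  ∀ (v : HeightOneSpectrum (𝓞 K)) (A : ℤ × ℤ → ℂ), IsSymFin A →
    ∃ f₀ : GL (Fin 2) (v.adicCompletion K) → ℂ, IsSatakePair v f₀ A

/-! ## 2. The complex place (Mathlib only) -/

/-- `k ∈ U(2)`. -/
def IsUnitary2 (k : GL (Fin 2) ℂ) : Prop :=
  (k : Matrix (Fin 2) (Fin 2) ℂ) * (k : Matrix (Fin 2) (Fin 2) ℂ).conjTranspose = 1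

/-- The local conditions of `T3.IsSph0Level` at a complex place, for a function on `GL₂(ℂ)`:
continuous, right invariant under `U(2)` and under the positive scalars, mean value property of
parameter `0` (`A0.MeanValueComplex`). -/
structure IsLocSph0 (Ψ : GL (Fin 2) ℂ → ℂ) : Prop where
  cont : Continuous Ψ
  unitary : ∀ k y : GL (Fin 2) ℂ, IsUnitary2 k → Ψ (y * k) = Ψ y
  scalar : ∀ (z : GL (Fin 2) ℂ) (r : ℝ), 0 < r →
    (z : Matrix (Fin 2) (Fin 2) ℂ) = Matrix.diagonal (fun _ => (r : ℂ)) →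
    ∀ y : GL (Fin 2) ℂ, Ψ (y * z) = Ψ y
  mean : ∀ d : ℝ, 0 < d → ∀ Y : ℝ → ℝ → GL (Fin 2) ℂ,
    (∀ α β : ℝ, ((Y α β : GL (Fin 2) ℂ) : Matrix (Fin 2) (Fin 2) ℂ)
      = rotZ α * rotY β * torus d) →
    ∀ y : GL (Fin 2) ℂ,
      (∫ α in (0 : ℝ)..(2 * Real.pi), ∫ β in (0 : ℝ)..Real.pi,
          Ψ (y * Y α β) * ((Real.sin β : ℝ) : ℂ))
        = ((4 * Real.pi * (d / Real.sinh d) : ℝ) : ℂ) * Ψ y

/-- The regularity of the archimedean factor. -/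
structure IsCplxTest (F : GL (Fin 2) ℂ → ℂ) : Prop where
  cont : Continuous F
  supp : HasCompactSupport F
  bi_inv : ∀ k k' g : GL (Fin 2) ℂ, IsUnitary2 k → IsUnitary2 k' → F (k * g * k') = F g

/-- The `N`-integral of `F` is `β` (Lebesgue measure of `ℂ`). -/
def HasAbelN (F : GL (Fin 2) ℂ → ℂ) (β : ℝ × ℝ → ℂ) : Prop :=
  ∀ c₁ c₂ : ℂˣ, ∫ x : ℂ, F (upperGL c₁ c₂ x)
    = ((‖(c₁ : ℂ)‖ * ‖(c₂ : ℂ)‖ : ℝ) : ℂ) * β (Real.log ‖(c₁ : ℂ)‖, Real.log ‖(c₂ : ℂ)‖)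

/-- `R(F)` acts on the functions of parameter `0` by the scalar `C`. -/
def ActsBy {m : MeasurableSpace (GL (Fin 2) ℂ)} (μc : Measure (GL (Fin 2) ℂ))
    (F : GL (Fin 2) ℂ → ℂ) (C : ℂ) : Prop :=
  ∀ Ψ : GL (Fin 2) ℂ → ℂ, IsLocSph0 Ψ → ∀ y : GL (Fin 2) ℂ, ∫ h, Ψ (y * h) * F h ∂μc = C * Ψ y

/-- **AS.2 = T3.17 (complex place; Abel transform on `ℍ³`), MATHLIB ONLY.**
There are a Haar measure `μ_ℂ` of `GL₂(ℂ)` (e.g. `|det|⁻⁴ ·` Lebesgue; the owner chooses) and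
`κ_ℂ ≠ 0` such that every symmetric `β ∈ C_c^∞(ℝ²)` is the `N`-integral of a continuous
bi-`U(2)`-invariant `F` of compact support with `R(F) Ψ = κ_ℂ (∫ β) Ψ` on the functions of
parameter `0`.  (AS.5 is stated for EVERY Haar measure `μ_ℂ`, so no uniqueness is needed here.)
Construction and proof: header of this file and memo helper14 §5; [Helgason, GGA, Ch. IV §5;
Lindenstrauss--Venkatesh §4]. -/
def AbelCplxC : Prop :=
  letI : MeasurableSpace (GL (Fin 2) ℂ) := borel (GL (Fin 2) ℂ)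
  ∃ μc : Measure (GL (Fin 2) ℂ), μc.IsHaarMeasure ∧
    ∃ κc : ℂ, κc ≠ 0 ∧ ∀ β : ℝ × ℝ → ℂ, IsSymBump β →
      ∃ F : GL (Fin 2) ℂ → ℂ, IsCplxTest F ∧ HasAbelN F β ∧
        ActsBy μc F (κc * ∫ x : ℝ × ℝ, β x)

/-! ## 3. The global leaves -/

/-- **AS.3 (regularity of the pure tensor).**  `GL₂(𝒪_v)`-cosets are open and compact, the set
`OutsideU` is open and closed, `finGL`, `infGL` are continuous; a subset of `GL₂(𝔸_K)` which is
compact at `v₀`, compact at the infinite places and contained in `OutsideU` is relatively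
compact (units topology!); `U(𝔫)_{v₀} = GL₂(𝒪_{v₀})` because `v₀ ∤ 𝔫`. -/
def PureRegC : Prop :=
  ∀ 𝔫 : Ideal (𝓞 K), 𝔫 ≠ ⊥ → ∀ v₀ : HeightOneSpectrum (𝓞 K), ¬ v₀.asIdeal ∣ 𝔫 →
  ∀ (f₀ : GL (Fin 2) (v₀.adicCompletion K) → ℂ) (F : InfinitePlace K → GL (Fin 2) ℂ → ℂ),
    IsBiIntInv v₀ f₀ → (∃ R : Finset (GL (Fin 2) (v₀.adicCompletion K)), IsRepSys v₀ f₀ R) →
    (∀ w, IsCplxTest (F w)) →
    Continuous (pureFn K 𝔫 v₀ f₀ F) ∧ HasCompactSupport (pureFn K 𝔫 v₀ f₀ F) ∧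
      IsBiInv K 𝔫 (pureFn K 𝔫 v₀ f₀ F) ∧ IsSuppAt K 𝔫 v₀ (pureFn K 𝔫 v₀ f₀ F)

/-- **AS.4 (the adelic `N`-integral of a pure tensor).**  Frame of `T3.AbelSatakeC`.  There are
`κ` and `Δ`, independent of the pure tensor, with
`∫_{𝔸_K} f(g⁻¹ n(x) γ₀ʲ g') dν(x) = κ(g,g') Φ(Δ(g,g') + j c₀)`.
Proof: header of EKSpec.lean and memo helper14 §5, item (i): Iwasawa `g = b₁ k₁`, `g' = b' k'`
(`T1.IwasawaC`), `γ₀ʲ n' = n'' γ₀ʲ`, affine substitution in `x` (module of an idele,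
`T1.H726.HaarModuleC`), splitting of `ν` at `S'`, the local `N`-integrals, `k'⁻¹ γ₀ʲ k' ∈ U(𝔫)_v`
outside `S'` (normality of `U(𝔫)_v` in `GL₂(𝒪_v)`, `α ≡ 1 mod 𝔫`), and the product formula
`q^{-n/2} ∏_w |α|_w = 1`. -/
def NIntC : Prop :=
  letI : MeasurableSpace (Adl K) := borel (Adl K)
  (∀ w : InfinitePlace K, w.IsComplex) →
  ∀ ν : Measure (Adl K), ν.IsAddHaarMeasure →
  ∀ 𝔫 : Ideal (𝓞 K), 𝔫 ≠ ⊥ → ∀ v₀ : HeightOneSpectrum (𝓞 K), ¬ v₀.asIdeal ∣ 𝔫 →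
  ∀ (a₀ : 𝓞 K) (n : ℕ), 0 < n → Ideal.span {a₀} = v₀.asIdeal ^ n → a₀ - 1 ∈ 𝔫 →
  ∀ α : Kˣ, (α : K) = algebraMap (𝓞 K) K a₀ →
    ∃ (κ : G K → G K → ℂ) (Δ : G K → G K → Coord K),
      ∀ (A : ℤ × ℤ → ℂ) (β : InfinitePlace K → ℝ × ℝ → ℂ)
        (f₀ : GL (Fin 2) (v₀.adicCompletion K) → ℂ) (F : InfinitePlace K → GL (Fin 2) ℂ → ℂ),
        IsBiIntInv v₀ f₀ → (∃ R : Finset (GL (Fin 2) (v₀.adicCompletion K)), IsRepSys v₀ f₀ R) →
        HasSatakeN v₀ f₀ A →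
        (∀ w, IsCplxTest (F w)) → (∀ w, HasAbelN (F w) (β w)) →
        ∀ (g g' : G K) (j : ℤ),
          Integrable (fun x => pureFn K 𝔫 v₀ f₀ F (g⁻¹ * unip K x * torK K α ^ j * g')) ν ∧
          ∫ x, pureFn K 𝔫 v₀ f₀ F (g⁻¹ * unip K x * torK K α ^ j * g') ∂ν
            = κ g g' * pureCoord K A β (Δ g g' + j • coordTor K n α)

/-- **AS.5 (the operator of a pure tensor).**  There is `κ₁ ≠ 0`, independent of the pure tensor,
with `R(f) φ = κ₁ (∑_m A(m) z₁^{m₁} z₂^{m₂}) (∏_w C_w) φ` whenever `f₀` has the Hecke eigenvalue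
`laurent A` and `F_w` acts by `C_w`.
Proof: `f₀ = ∑_{h ∈ R} f₀(h) 1_{h GL₂(𝒪)}`, so `f = ∑_h f₀(h) L_ĥ f¹` with
`f¹ = 1_{GL₂(𝒪_{v₀})} ⊗ ⊗_w F_w ⊗ 1_{U^{S'}}` and `ĥ` the element of `GL₂(𝔸_K)` supported at `v₀`
with component `h`; `R(L_ĥ f¹) φ (g) = R(f¹) φ (g ĥ)` (left invariance of `μ`);
`f¹` is supported in the open subgroup `G_∞ × U(𝔫)_f`, the image of the Haar measure under the
projection to `G_∞ = ∏_w GL₂(ℂ)` (compact kernel) is a Haar measure, hence `κ₁ ∏_w μ_ℂ`;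
`φ` is right `U(𝔫)`-invariant; the infinite places one at a time (`ActsBy`). -/
def ROpC : Prop :=
  letI : MeasurableSpace (G K) := borel (G K)
  letI : MeasurableSpace (GL (Fin 2) ℂ) := borel (GL (Fin 2) ℂ)
  (∀ w : InfinitePlace K, w.IsComplex) →
  ∀ μ : Measure (G K), μ.IsHaarMeasure →
  ∀ μc : Measure (GL (Fin 2) ℂ), μc.IsHaarMeasure →
  ∀ 𝔫 : Ideal (𝓞 K), 𝔫 ≠ ⊥ → ∀ v₀ : HeightOneSpectrum (𝓞 K), ¬ v₀.asIdeal ∣ 𝔫 →
    ∃ κ₁ : ℂ, κ₁ ≠ 0 ∧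
      ∀ (A : ℤ × ℤ → ℂ) (C : InfinitePlace K → ℂ)
        (f₀ : GL (Fin 2) (v₀.adicCompletion K) → ℂ) (F : InfinitePlace K → GL (Fin 2) ℂ → ℂ),
        IsBiIntInv v₀ f₀ → (∃ R : Finset (GL (Fin 2) (v₀.adicCompletion K)), IsRepSys v₀ f₀ R) →
        HasSatakeEigen v₀ f₀ A →
        (∀ w, IsCplxTest (F w)) → (∀ w, ActsBy μc (F w) (C w)) →
        ∀ φ : G K → ℂ, IsSph0Level K 𝔫 φ → ∀ a b z₁ z₂ : ℂ, IsHeckeEigenAt φ v₀ a b →
          z₁ + z₂ = a → z₁ * z₂ = b → b ≠ 0 →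
          ∀ g : G K, Rop K μ (pureFn K 𝔫 v₀ f₀ F) φ g
            = κ₁ * laurent A z₁ z₂ * (∏ w : InfinitePlace K, C w) * φ g

end Fermat.Agent.LT.T3.AS

end
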