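import Mathlib

/-!
# Row LT, tower T3, station T3.18a, leaf AS.2w: WHITNEY'S LEMMA with a parameter (MATHLIB ONLY)

OFF-MAIN.  Frozen Props only (sub-architect helper736).  This is the only new analytic content of
the smooth form AS.2s `AbelCplxSmoothC` (ruling R4: test functions are smooth at infinity).

`WhitneySinhC`: for `E(u, c)` smooth on `ℝ²` and even in `u` there is `ρ`, smooth on the closed
half plane `{y ≥ 1}` (up to the boundary, `ContDiffOn`), with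
`∂_u E(u, c) = sinh u · ρ(cosh u, c)`.
[`ρ(y, c) = ∂_u E(arcosh y, c) / sinh(arcosh y)` for `y > 1`, `ρ(1, c) = ∂_u² E(0, c)`.]

Use in AS.2s: `β̃(u, c) = β((c+u)/2, (c-u)/2)`, `F(x) = - ρ(chD x, log |det x|) / 2π` is smooth on
`GL₂(ℂ)` (`chD ≥ 1` is smooth, `ContDiffOn.comp`), equals `abelInv614 (β̃(·, c)) (chD x)` of
helper614 for every fixed `c = log |det x|`, and its `N`-integral is `|c₁ c₂| β` by the
fundamental theorem of calculus.

Proof (Whitney, Duke Math. J. 10 (1943); Hadamard's lemma).  `Q(u, c) := ∂_u E(u, c) / sinh u`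
extends to a smooth function, even in `u`:
`∂_u E(u, c) = u ∫₀¹ ∂_u² E(t u, c) dt`, `sinh u = u ∫₀¹ cosh (t u) dt`, the second integral is
`≥ 1`.  `ρ(cosh u, c) = Q(u, c)`; `∂_y ρ (cosh u, c) = ∂_u Q(u, c) / sinh u` is of the same form
(`Q` is smooth and even), so by induction all derivatives of `ρ` in `y > 1` extend continuously
to `y = 1`, jointly in `(y, c)`.
-/

set_option autoImplicit false

noncomputable section

namespace Fermat.Agent.LT.T3.AS

/-- **AS.2w = WHITNEY (division form, with a parameter).** -/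
def WhitneySinhC : Prop :=
  ∀ E : ℝ × ℝ → ℂ, ContDiff ℝ ((⊤ : ℕ∞) : WithTop ℕ∞) E → (∀ u c : ℝ, E (-u, c) = E (u, c)) →
    ∃ ρ : ℝ × ℝ → ℂ,
      ContDiffOn ℝ ((⊤ : ℕ∞) : WithTop ℕ∞) ρ (Set.Ici (1 : ℝ) ×ˢ (Set.univ : Set ℝ)) ∧
      ∀ u c : ℝ, deriv (fun t : ℝ => E (t, c)) u = (Real.sinh u : ℂ) * ρ (Real.cosh u, c)

/-- The one-variable form (no parameter), a sub-step. -/
def WhitneySinh1C : Prop :=
  ∀ E : ℝ → ℂ, ContDiff ℝ ((⊤ : ℕ∞) : WithTop ℕ∞) E → (∀ u : ℝ, E (-u) = E u) →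
    ∃ ρ : ℝ → ℂ, ContDiffOn ℝ ((⊤ : ℕ∞) : WithTop ℕ∞) ρ (Set.Ici (1 : ℝ)) ∧
      ∀ u : ℝ, deriv E u = (Real.sinh u : ℂ) * ρ (Real.cosh u)

end Fermat.Agent.LT.T3.AS

end
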