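import Fermat.Agent.LT.T3.H736.ASSmooth
import Fermat.Agent.LT.T3.H736.ASWhitney
import Fermat.Agent.LT.T3.H315.AbelCut

/-!
# Row LT, tower T3, station T3.18a, leaf AS.2s: smoothness of the test function from WHITNEY

OFF-MAIN (helper736).  Imports the byte-identical copies of `LT/T3/H315/AbelCut.lean`
(helper315@4ea336ee2, sha256 446d055e) and `LT/T3/H614/AbelCalc.lean` (helper614@bc549c9f6,
sha256 2e11bd46).

* `abelInv_eq_rho736` : if `∂_u E = sinh u · ρ(cosh u)` with `ρ` smooth on `{y ≥ 1}`, then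
  `abelInv614 E y = -(2π)⁻¹ ρ(y)` for `y ≥ 1`;
* `abelFn_smooth736 : WhitneySinhC → IsSymBump β → IsCplxSmooth (abelFn β)`;
* `abelFn_continuous736 : WhitneySinhC → IsSymBump β → Continuous (abelFn β)`;
* `abelCplxSmooth_of736` : the top of helper315 in the smooth form,
  `WhitneySinhC → RegC → NIntC → SphContC → AvgC → IwaC → CalcC → AbelCplxSmoothC`.
-/

set_option autoImplicit false

open MeasureTheory
open Fermat.Agent.LT.H556.A0 Fermat.Agent.LT.T3.H614 Fermat.Agent.LT.T3.H315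

noncomputable section

namespace Fermat.Agent.LT.T3.AS

/-- The function of two variables `E(u, c) = β((c+u)/2, (c-u)/2)`. -/
def slice2 (β : ℝ × ℝ → ℂ) (p : ℝ × ℝ) : ℂ := β ((p.2 + p.1) / 2, (p.2 - p.1) / 2)

theorem slice2_contDiff {β : ℝ × ℝ → ℂ} (hβ : IsSymBump β) :
    ContDiff ℝ ((⊤ : ℕ∞) : WithTop ℕ∞) (slice2 β) := by
  unfold slice2
  exact hβ.1.comp (by fun_prop)

theorem slice2_even {β : ℝ × ℝ → ℂ} (hβ : IsSymBump β) (u c : ℝ) :
    slice2 β (-u, c) = slice2 β (u, c) := by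
  unfold slice2
  simp only
  rw [hβ.2.2]
  congr 2
  ring

theorem slice2_eq (β : ℝ × ℝ → ℂ) (c : ℝ) : (fun t : ℝ => slice2 β (t, c)) = sliceE β c := rfl

/-- If `E' = sinh · ρ(cosh)` with `ρ` smooth on `{y ≥ 1}` then the inverse Abel transform of
helper614 is `-(2π)⁻¹ ρ` on `{y ≥ 1}`. -/
theorem abelInv_eq_rho736 (E : ℝ → ℂ) (r : ℝ → ℂ)
    (hr : ContDiffOn ℝ ((⊤ : ℕ∞) : WithTop ℕ∞) r (Set.Ici (1 : ℝ)))
    (hE : ∀ u : ℝ, deriv E u = (Real.sinh u : ℂ) * r (Real.cosh u)) (y : ℝ) (hy : 1 ≤ y) :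
    abelInv614 E y = (-(2 * Real.pi)⁻¹ : ℝ) • r y := by
  rcases hy.eq_or_lt with h1 | h1
  · subst h1
    rw [abelInv614_of_le le_rfl]
    congr 1
    have hsm : ContDiff ℝ ((⊤ : ℕ∞) : WithTop ℕ∞) (fun u : ℝ => r (Real.cosh u)) := by
      rw [← contDiffOn_univ]
      exact hr.comp (Real.contDiff_cosh.contDiffOn) fun u _ => Real.one_le_cosh u
    have hd : HasDerivAt (fun u : ℝ => r (Real.cosh u)) (deriv (fun u : ℝ => r (Real.cosh u)) 0)
        0 := (hsm.differentiable (by simp) 0).hasDerivAt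
    have hs : HasDerivAt (fun u : ℝ => (Real.sinh u : ℂ)) ((Real.cosh 0 : ℝ) : ℂ) 0 :=
      (Real.hasDerivAt_sinh 0).ofReal_comp
    have := hs.mul hd
    have e : deriv E = fun u : ℝ => (Real.sinh u : ℂ) * r (Real.cosh u) := funext hE
    rw [e]
    have h2 := this.deriv
    simp only [Real.cosh_zero, Real.sinh_zero, Complex.ofReal_one, Complex.ofReal_zero, one_mul,
      zero_mul, add_zero] at h2
    exact h2
  · rw [abelInv614_of_lt h1, hE, Real.sinh_arcosh hy, Real.cosh_arcosh hy]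
    have hpos : 0 < Real.sqrt (y ^ 2 - 1) := Real.sqrt_pos.2 (by nlinarith)
    rw [Complex.real_smul, Complex.real_smul, ← mul_assoc]
    congr 1
    rw [← Complex.ofReal_mul]
    congr 1
    field_simp

section Family

variable {n : ℕ} (h : (Fin n → ℝ) → GL (Fin 2) ℂ)

theorem det_family_contDiff736
    (hh : ∀ i j : Fin 2, ContDiff ℝ ((⊤ : ℕ∞) : WithTop ℕ∞)
      (fun t => ((h t : GL (Fin 2) ℂ) : Matrix (Fin 2) (Fin 2) ℂ) i j)) :
    ContDiff ℝ ((⊤ : ℕ∞) : WithTop ℕ∞)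
      (fun t => ((h t : GL (Fin 2) ℂ) : Matrix (Fin 2) (Fin 2) ℂ).det) := by
  have : (fun t => ((h t : GL (Fin 2) ℂ) : Matrix (Fin 2) (Fin 2) ℂ).det)
      = fun t => ((h t : GL (Fin 2) ℂ) : Matrix (Fin 2) (Fin 2) ℂ) 0 0
          * ((h t : GL (Fin 2) ℂ) : Matrix (Fin 2) (Fin 2) ℂ) 1 1
        - ((h t : GL (Fin 2) ℂ) : Matrix (Fin 2) (Fin 2) ℂ) 0 1
          * ((h t : GL (Fin 2) ℂ) : Matrix (Fin 2) (Fin 2) ℂ) 1 0 := by
    funext t
    rw [Matrix.det_fin_two]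
  rw [this]
  exact ((hh 0 0).mul (hh 1 1)).sub ((hh 0 1).mul (hh 1 0))

theorem det_ne_zero736 (g : GL (Fin 2) ℂ) : (g : Matrix (Fin 2) (Fin 2) ℂ).det ≠ 0 := by
  have := Matrix.GeneralLinearGroup.det_ne_zero g
  exact this

theorem coords_family_contDiff736
    (hh : ∀ i j : Fin 2, ContDiff ℝ ((⊤ : ℕ∞) : WithTop ℕ∞)
      (fun t => ((h t : GL (Fin 2) ℂ) : Matrix (Fin 2) (Fin 2) ℂ) i j)) :
    ContDiff ℝ ((⊤ : ℕ∞) : WithTop ℕ∞)
      (fun t => (chD614 ((h t : GL (Fin 2) ℂ) : Matrix (Fin 2) (Fin 2) ℂ),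
        Real.log ‖((h t : GL (Fin 2) ℂ) : Matrix (Fin 2) (Fin 2) ℂ).det‖)) := by
  have hdet := det_family_contDiff736 h hh
  have hnorm : ContDiff ℝ ((⊤ : ℕ∞) : WithTop ℕ∞)
      (fun t => ‖((h t : GL (Fin 2) ℂ) : Matrix (Fin 2) (Fin 2) ℂ).det‖) :=
    hdet.norm ℝ fun t => det_ne_zero736 (h t)
  have hne : ∀ t, ‖((h t : GL (Fin 2) ℂ) : Matrix (Fin 2) (Fin 2) ℂ).det‖ ≠ 0 := fun t =>
    norm_ne_zero_iff.2 (det_ne_zero736 (h t))
  refine ContDiff.prodMk ?_ (hnorm.log hne)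
  unfold chD614 hsq614
  refine ContDiff.div ?_ (contDiff_const.mul hnorm) fun t => mul_ne_zero two_ne_zero (hne t)
  exact ((((hh 0 0).norm_sq ℝ).add ((hh 0 1).norm_sq ℝ)).add ((hh 1 0).norm_sq ℝ)).add
    ((hh 1 1).norm_sq ℝ)

end Family

/-- `abelFn β = -(2π)⁻¹ ρ(chD, log |det|)` for the function `ρ` of Whitney's lemma. -/
theorem abelFn_eq_rho736 {β : ℝ × ℝ → ℂ} (ρ : ℝ × ℝ → ℂ)
    (hρ : ContDiffOn ℝ ((⊤ : ℕ∞) : WithTop ℕ∞) ρ (Set.Ici (1 : ℝ) ×ˢ (Set.univ : Set ℝ)))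
    (hE : ∀ u c : ℝ, deriv (fun t : ℝ => slice2 β (t, c)) u
      = (Real.sinh u : ℂ) * ρ (Real.cosh u, c)) (g : GL (Fin 2) ℂ) :
    abelFn β g = (-(2 * Real.pi)⁻¹ : ℝ) • ρ (chD614 (g : Matrix (Fin 2) (Fin 2) ℂ),
      Real.log ‖(g : Matrix (Fin 2) (Fin 2) ℂ).det‖) := by
  unfold abelFn
  refine abelInv_eq_rho736 _ (fun y => ρ (y, Real.log ‖(g : Matrix (Fin 2) (Fin 2) ℂ).det‖))
    ?_ (fun u => hE u _) _ (one_le_chD614 _ (det_ne_zero736 g))
  exact hρ.comp (by fun_prop) fun y hy => ⟨hy, Set.mem_univ _⟩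

/-- **Smoothness of the test function of AS.2 from Whitney's lemma.** -/
theorem abelFn_smooth736 (hW : WhitneySinhC) {β : ℝ × ℝ → ℂ} (hβ : IsSymBump β) :
    IsCplxSmooth (abelFn β) := by
  obtain ⟨ρ, hρ, hE⟩ := hW (slice2 β) (slice2_contDiff hβ) (slice2_even hβ)
  intro n h hh
  have e : (fun t => abelFn β (h t))
      = fun t => (-(2 * Real.pi)⁻¹ : ℝ) • ρ (chD614 ((h t : GL (Fin 2) ℂ) :
          Matrix (Fin 2) (Fin 2) ℂ),
        Real.log ‖((h t : GL (Fin 2) ℂ) : Matrix (Fin 2) (Fin 2) ℂ).det‖) :=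
    funext fun t => abelFn_eq_rho736 ρ hρ hE (h t)
  rw [e]
  refine ContDiff.const_smul _ ?_
  rw [← contDiffOn_univ]
  exact hρ.comp (coords_family_contDiff736 h hh).contDiffOn fun t _ =>
    ⟨one_le_chD614 _ (det_ne_zero736 (h t)), Set.mem_univ _⟩

/-- **Continuity of the test function of AS.2 from Whitney's lemma.** -/
theorem abelFn_continuous736 (hW : WhitneySinhC) {β : ℝ × ℝ → ℂ} (hβ : IsSymBump β) :
    Continuous (abelFn β) := by
  obtain ⟨ρ, hρ, hE⟩ := hW (slice2 β) (slice2_contDiff hβ) (slice2_even hβ)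
  have e : abelFn β = fun g : GL (Fin 2) ℂ =>
      (-(2 * Real.pi)⁻¹ : ℝ) • ρ (chD614 (g : Matrix (Fin 2) (Fin 2) ℂ),
        Real.log ‖(g : Matrix (Fin 2) (Fin 2) ℂ).det‖) :=
    funext fun g => abelFn_eq_rho736 ρ hρ hE g
  rw [e]
  suffices hc : Continuous fun g : GL (Fin 2) ℂ =>
      ρ (chD614 (g : Matrix (Fin 2) (Fin 2) ℂ),
        Real.log ‖(g : Matrix (Fin 2) (Fin 2) ℂ).det‖) from
    (continuous_const (y := (-(2 * Real.pi)⁻¹ : ℝ))).smul hc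
  have hcoe : Continuous fun g : GL (Fin 2) ℂ => (g : Matrix (Fin 2) (Fin 2) ℂ) :=
    Units.continuous_val (M := Matrix (Fin 2) (Fin 2) ℂ)
  have hent : ∀ i j : Fin 2, Continuous fun g : GL (Fin 2) ℂ =>
      (g : Matrix (Fin 2) (Fin 2) ℂ) i j := fun i j =>
    hcoe.matrix_elem i j
  have hdet : Continuous fun g : GL (Fin 2) ℂ => (g : Matrix (Fin 2) (Fin 2) ℂ).det := by
    have : (fun g : GL (Fin 2) ℂ => (g : Matrix (Fin 2) (Fin 2) ℂ).det)
        = fun g : GL (Fin 2) ℂ =>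
          (g : Matrix (Fin 2) (Fin 2) ℂ) 0 0 * (g : Matrix (Fin 2) (Fin 2) ℂ) 1 1
          - (g : Matrix (Fin 2) (Fin 2) ℂ) 0 1 * (g : Matrix (Fin 2) (Fin 2) ℂ) 1 0 := by
      funext g
      rw [Matrix.det_fin_two]
    rw [this]
    exact ((hent 0 0).mul (hent 1 1)).sub ((hent 0 1).mul (hent 1 0))
  have hne : ∀ g : GL (Fin 2) ℂ, ‖(g : Matrix (Fin 2) (Fin 2) ℂ).det‖ ≠ 0 := fun g =>
    norm_ne_zero_iff.2 (det_ne_zero736 g)
  have hmap : Continuous fun g : GL (Fin 2) ℂ =>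
      (chD614 (g : Matrix (Fin 2) (Fin 2) ℂ),
        Real.log ‖(g : Matrix (Fin 2) (Fin 2) ℂ).det‖) := by
    refine Continuous.prodMk ?_ (hdet.norm.log hne)
    unfold chD614 hsq614
    refine Continuous.div ?_ (continuous_const.mul hdet.norm) fun g =>
      mul_ne_zero two_ne_zero (hne g)
    exact (((((hent 0 0).norm.pow 2).add ((hent 0 1).norm.pow 2)).add
      ((hent 1 0).norm.pow 2)).add ((hent 1 1).norm.pow 2))
  exact hρ.continuousOn.comp_continuous hmap fun g =>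
    ⟨one_le_chD614 _ (det_ne_zero736 g), Set.mem_univ _⟩

/-- **AS.2s from the cut of helper315 and Whitney's lemma**: the top of helper315
(`abelCplx_of315`) in the smooth form. -/
theorem abelCplxSmooth_of736 (hW : WhitneySinhC) (hreg : RegC) (hn : H315.NIntC)
    (hs : SphContC) (ha : AvgC) (hi : IwaC) (hc : CalcC) : AbelCplxSmoothC := by
  let _ : MeasurableSpace (GL (Fin 2) ℂ) := borel (GL (Fin 2) ℂ)
  obtain ⟨μ, hμ, c, hc0, hiwa⟩ := hi
  refine ⟨μ, hμ, (c : ℂ), by exact_mod_cast hc0.ne', ?_⟩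
  intro β hβ
  have hF := hreg β hβ
  refine ⟨abelFn β, hF, abelFn_smooth736 hW hβ, hn β hβ, ?_⟩
  intro Ψ hΨ y
  have hleft : ∀ k h : GL (Fin 2) ℂ, IsUnitary2 k → abelFn β (k * h) = abelFn β h := by
    intro k h hk
    have := hF.bi_inv k 1 h hk isUnitary2_one315
    simpa using this
  have hright : ∀ k h : GL (Fin 2) ℂ, IsUnitary2 k → abelFn β (h * k) = abelFn β h := by
    intro k h hk
    have := hF.bi_inv 1 k h isUnitary2_one315 hk
    simpa using this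
  rw [ha μ hμ Ψ hΨ (abelFn β) hF.cont hF.supp hleft y]
  have hΦc : Continuous fun h : GL (Fin 2) ℂ =>
      ((sph0 (chD614 (h : Matrix (Fin 2) (Fin 2) ℂ)) : ℝ) : ℂ) * abelFn β h := hs.mul hF.cont
  have hΦs : HasCompactSupport fun h : GL (Fin 2) ℂ =>
      ((sph0 (chD614 (h : Matrix (Fin 2) (Fin 2) ℂ)) : ℝ) : ℂ) * abelFn β h :=
    hF.supp.mul_left
  have hΦk : ∀ k h : GL (Fin 2) ℂ, IsUnitary2 k →
      ((sph0 (chD614 ((h * k : GL (Fin 2) ℂ) : Matrix (Fin 2) (Fin 2) ℂ)) : ℝ) : ℂ)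
          * abelFn β (h * k)
        = ((sph0 (chD614 (h : Matrix (Fin 2) (Fin 2) ℂ)) : ℝ) : ℂ) * abelFn β h := by
    intro k h hk
    have hk' : (k : Matrix (Fin 2) (Fin 2) ℂ) * (k : Matrix (Fin 2) (Fin 2) ℂ).conjTranspose = 1 :=
      hk
    rw [hright k h hk, Units.val_mul, chD614_mul_unitary_right _ _ hk']
  have hΦ : ∫ h, ((sph0 (chD614 (h : Matrix (Fin 2) (Fin 2) ℂ)) : ℝ) : ℂ) * abelFn β h ∂μ
      = (c : ℂ) * ∫ p : ℝ × ℝ, β p := by
    rw [hiwa (fun h : GL (Fin 2) ℂ =>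
      ((sph0 (chD614 (h : Matrix (Fin 2) (Fin 2) ℂ)) : ℝ) : ℂ) * abelFn β h) hΦc hΦs hΦk,
      hc β hβ]
  rw [hΦ]
  ring

end Fermat.Agent.LT.T3.AS

end
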