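import Fermat.Agent.LT.T3.H736.ASTop

/-!
# Row LT, tower T3, station T3.18a -- THE SMOOTH FORM (ruling R4 of helper797; sub-architect helper736)

OFF-MAIN.  Nothing of `ASSpec.lean` / `ASTop.lean` is changed.  Ruling R4 (chief helper797,
13:50Z): test functions are smooth at infinity (`T2.IsSmoothAtInf`).  This file provides the
station in that form:

* `IsSmoothInf K f` = `T2.IsSmoothAtInf f`, written out (no import of the T2 Spec);
* `IsCplxSmooth F`: the local condition on `GL₂(ℂ)`;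
* `AbelCplxSmoothC` (leaf AS.2s): `AbelCplxC` with `F` smooth in addition;
* `pureSmooth` (PROVED here): the pure tensor is smooth at infinity if every `F_w` is;
* `AbelSatakeSmoothC K`: `T3.AbelSatakeC K` with `IsSmoothInf K f` in addition;
* `abelSatakeSmooth_of : SatakeLocC K → AbelCplxSmoothC → PureRegC K → NIntC K → ROpC K →
  AbelSatakeSmoothC K` (PROVED) and `abelSatake_of_smooth : AbelSatakeSmoothC K → AbelSatakeC K`.

So R4 costs the station exactly one strengthened leaf, AS.2s, all the rest is unchanged.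
-/

set_option autoImplicit false

open IsDedekindDomain NumberField MeasureTheory
open Fermat.Agent.LT.H556.A0

noncomputable section

namespace Fermat.Agent.LT.T3.AS

variable (K : Type) [Field K] [NumberField K]

/-- `f` is smooth in the archimedean variables (= `T2.IsSmoothAtInf`, verbatim): smooth along
every smooth finite-dimensional family of elements supported at the infinite places. -/
def IsSmoothInf (f : G K → ℂ) : Prop :=
  ∀ (n : ℕ) (h : (Fin n → ℝ) → G K),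
    (∀ (t : Fin n → ℝ) (v : HeightOneSpectrum (𝓞 K)), TrivAtFin v (h t)) →
    (∀ (w : InfinitePlace K) (i j : Fin 2),
      ContDiff ℝ ((⊤ : ℕ∞) : WithTop ℕ∞) (fun t => infComp w (h t) i j)) →
    ∀ g : G K, ContDiff ℝ ((⊤ : ℕ∞) : WithTop ℕ∞) (fun t => f (g * h t))

/-- `F` is smooth on `GL₂(ℂ)`: smooth along every smooth finite-dimensional family. -/
def IsCplxSmooth (F : GL (Fin 2) ℂ → ℂ) : Prop :=
  ∀ (n : ℕ) (h : (Fin n → ℝ) → GL (Fin 2) ℂ),
    (∀ i j : Fin 2, ContDiff ℝ ((⊤ : ℕ∞) : WithTop ℕ∞)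
      (fun t => ((h t : GL (Fin 2) ℂ) : Matrix (Fin 2) (Fin 2) ℂ) i j)) →
    ContDiff ℝ ((⊤ : ℕ∞) : WithTop ℕ∞) (fun t => F (h t))

/-- **AS.2s (complex place, smooth form).**  `AbelCplxC` with `F` smooth in addition.
With `F(x) = ρ(chD x, log |det x|)`, `chD x = tr(x x*) / (2 |det x|)`,
`ρ(y, c) = - ∂_y G(y, c) / 2π` where `β((c+u)/2, (c-u)/2) = G(cosh u, c)`: the only new point is
that an even smooth function of `u` is a smooth function of `cosh u` (Whitney 1943, with the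
parameter `c`), smooth up to the boundary `y = 1`; `ContDiffOn` on `Ici 1 ×ˢ univ` suffices
because `chD ≥ 1` (`ContDiffOn.comp`). -/
def AbelCplxSmoothC : Prop :=
  letI : MeasurableSpace (GL (Fin 2) ℂ) := borel (GL (Fin 2) ℂ)
  ∃ μc : Measure (GL (Fin 2) ℂ), μc.IsHaarMeasure ∧
    ∃ κc : ℂ, κc ≠ 0 ∧ ∀ β : ℝ × ℝ → ℂ, IsSymBump β →
      ∃ F : GL (Fin 2) ℂ → ℂ, IsCplxTest F ∧ IsCplxSmooth F ∧ HasAbelN F β ∧
        ActsBy μc F (κc * ∫ x : ℝ × ℝ, β x)

theorem abelCplx_of_smooth (h : AbelCplxSmoothC) : AbelCplxC := by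
  obtain ⟨μc, hμc, κc, hκc, hF⟩ := h
  refine ⟨μc, hμc, κc, hκc, fun β hβ => ?_⟩
  obtain ⟨F, h1, -, h2, h3⟩ := hF β hβ
  exact ⟨F, h1, h2, h3⟩

/-- **T3.18a in the smooth form** (ruling R4): `T3.AbelSatakeC K` with `f` smooth at infinity. -/
def AbelSatakeSmoothC : Prop :=
  letI : MeasurableSpace (Adl K) := borel (Adl K)
  letI : MeasurableSpace (G K) := borel (G K)
  (∀ w : InfinitePlace K, w.IsComplex) →
  ∀ μ : Measure (G K), μ.IsHaarMeasure → ∀ ν : Measure (Adl K), ν.IsAddHaarMeasure →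
  ∀ 𝔫 : Ideal (𝓞 K), 𝔫 ≠ ⊥ → ∀ v₀ : HeightOneSpectrum (𝓞 K), ¬ v₀.asIdeal ∣ 𝔫 →
  ∀ (a₀ : 𝓞 K) (n : ℕ), 0 < n → Ideal.span {a₀} = v₀.asIdeal ^ n → a₀ - 1 ∈ 𝔫 →
  ∀ α : Kˣ, (α : K) = algebraMap (𝓞 K) K a₀ →
    ∃ (κ : G K → G K → ℂ) (Δ : G K → G K → Coord K) (κ₀ : ℂ), κ₀ ≠ 0 ∧
      ∀ Φ : Coord K → ℂ, Φ ∈ SymSpan K →
        ∃ f : G K → ℂ, Continuous f ∧ HasCompactSupport f ∧
          IsBiInv K 𝔫 f ∧ IsSuppAt K 𝔫 v₀ f ∧ IsSmoothInf K f ∧
          (∀ (g g' : G K) (j : ℤ),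
            ∫ x, f (g⁻¹ * unip K x * torK K α ^ j * g') ∂ν
              = κ g g' * Φ (Δ g g' + j • coordTor K n α)) ∧
          ∀ φ : G K → ℂ, IsSph0Level K 𝔫 φ → ∀ a b z₁ z₂ : ℂ, IsHeckeEigenAt φ v₀ a b →
            z₁ + z₂ = a → z₁ * z₂ = b → b ≠ 0 →
            ∀ g : G K, Rop K μ f φ g = κ₀ * ftCoord K Φ z₁ z₂ * φ g

theorem abelSatake_of_smooth (h : AbelSatakeSmoothC K) : AbelSatakeC K := by
  intro hcx μ hμ ν hν 𝔫 h𝔫 v₀ hv₀ a₀ n hn hspan hcong α hα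
  obtain ⟨κ, Δ, κ₀, hκ₀, H⟩ := h hcx μ hμ ν hν 𝔫 h𝔫 v₀ hv₀ a₀ n hn hspan hcong α hα
  refine ⟨κ, Δ, κ₀, hκ₀, fun Φ hΦ => ?_⟩
  obtain ⟨f, h1, h2, h3, h4, -, h5, h6⟩ := H Φ hΦ
  exact ⟨f, h1, h2, h3, h4, h5, h6⟩

variable {K}

theorem IsSmoothInf.zero : IsSmoothInf K (0 : G K → ℂ) :=
  fun _ _ _ _ _ => contDiff_const

theorem IsSmoothInf.add {f₁ f₂ : G K → ℂ} (h₁ : IsSmoothInf K f₁) (h₂ : IsSmoothInf K f₂) :
    IsSmoothInf K (f₁ + f₂) :=
  fun n h hf hi g => (h₁ n h hf hi g).add (h₂ n h hf hi g)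

theorem IsSmoothInf.smul {f : G K → ℂ} (h₁ : IsSmoothInf K f) (c : ℂ) :
    IsSmoothInf K (c • f) :=
  fun n h hf hi g => contDiff_const.mul (h₁ n h hf hi g)

/-! ## The pure tensor is smooth at infinity -/

theorem finComp_mul (v : HeightOneSpectrum (𝓞 K)) (g h : G K) :
    finComp v (g * h) = finComp v g * finComp v h := by
  rw [← finGL_coe, ← finGL_coe, ← finGL_coe, map_mul]
  rfl

theorem infComp_mul (w : InfinitePlace K) (g h : G K) :
    infComp w (g * h) = infComp w g * infComp w h := by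
  rw [← infGL_coe, ← infGL_coe, ← infGL_coe, map_mul]
  rfl

theorem finGL_eq_one_of_triv (v : HeightOneSpectrum (𝓞 K)) {h : G K} (hh : TrivAtFin v h) :
    finGL K v h = 1 := by
  apply Units.ext
  rw [finGL_coe]
  exact hh

theorem outsideU_mul_triv (𝔫 : Ideal (𝓞 K)) (v₀ : HeightOneSpectrum (𝓞 K)) (g h : G K)
    (hh : ∀ v : HeightOneSpectrum (𝓞 K), TrivAtFin v h) :
    OutsideU K 𝔫 v₀ (g * h) ↔ OutsideU K 𝔫 v₀ g := by
  have e1 : ∀ v : HeightOneSpectrum (𝓞 K), finComp v (g * h) = finComp v g := fun v => by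
    rw [← finGL_coe, ← finGL_coe, map_mul, finGL_eq_one_of_triv v (hh v), mul_one]
  have e2 : ∀ v : HeightOneSpectrum (𝓞 K), finComp v (g * h)⁻¹ = finComp v g⁻¹ := fun v => by
    rw [← finGL_coe, ← finGL_coe, mul_inv_rev, map_mul, map_inv,
      finGL_eq_one_of_triv v (hh v), inv_one, one_mul]
  unfold OutsideU
  simp only [e1, e2]

/-- **The pure tensor is smooth at infinity** if every `F_w` is smooth. -/
theorem pureSmooth (𝔫 : Ideal (𝓞 K)) (v₀ : HeightOneSpectrum (𝓞 K))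
    (f₀ : GL (Fin 2) (v₀.adicCompletion K) → ℂ) (F : InfinitePlace K → GL (Fin 2) ℂ → ℂ)
    (hF : ∀ w, IsCplxSmooth (F w)) : IsSmoothInf K (pureFn K 𝔫 v₀ f₀ F) := by
  intro n h hfin hinf g
  have key : ∀ c : ℂ, ContDiff ℝ ((⊤ : ℕ∞) : WithTop ℕ∞)
      (fun t => c * ∏ w : InfinitePlace K, F w (infGL K w g * infGL K w (h t))) := by
    intro c
    refine contDiff_const.mul (contDiff_prod fun w _ => ?_)
    refine hF w n (fun t => infGL K w g * infGL K w (h t)) fun i j => ?_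
    have : (fun t => ((infGL K w g * infGL K w (h t) : GL (Fin 2) ℂ) :
        Matrix (Fin 2) (Fin 2) ℂ) i j)
        = fun t => ∑ k : Fin 2, infComp w g i k * infComp w (h t) k j := by
      funext t
      rw [Units.val_mul, infGL_coe, infGL_coe, Matrix.mul_apply]
    rw [this]
    exact ContDiff.sum fun k _ => contDiff_const.mul (hinf w k j)
  by_cases hg : OutsideU K 𝔫 v₀ g
  · have e : (fun t => pureFn K 𝔫 v₀ f₀ F (g * h t))
        = fun t => f₀ (finGL K v₀ g)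
            * ∏ w : InfinitePlace K, F w (infGL K w g * infGL K w (h t)) := by
      funext t
      unfold pureFn
      rw [if_pos ((outsideU_mul_triv 𝔫 v₀ g (h t) (hfin t)).2 hg)]
      simp only [map_mul, finGL_eq_one_of_triv v₀ (hfin t v₀), mul_one]
    rw [e]
    exact key _
  · have e : (fun t => pureFn K 𝔫 v₀ f₀ F (g * h t)) = fun _ => 0 := by
      funext t
      unfold pureFn
      rw [if_neg fun h' => hg ((outsideU_mul_triv 𝔫 v₀ g (h t) (hfin t)).1 h')]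
    rw [e]
    exact contDiff_const

/-! ## The top in the smooth form -/

variable (K)

/-- **T3.18a, the top in the smooth form.** -/
theorem abelSatakeSmooth_of (h1 : SatakeLocC K) (h2 : AbelCplxSmoothC) (h3 : PureRegC K)
    (h4 : NIntC K) (h5 : ROpC K) : AbelSatakeSmoothC K := by
  let _ : MeasurableSpace (Adl K) := borel (Adl K)
  let _ : MeasurableSpace (G K) := borel (G K)
  let _ : MeasurableSpace (GL (Fin 2) ℂ) := borel (GL (Fin 2) ℂ)
  have _ : BorelSpace (G K) := ⟨rfl⟩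
  intro hcx μ hμ ν hν 𝔫 h𝔫 v₀ hv₀ a₀ n hn hspan hcong α hα
  obtain ⟨μc, hμc, κc, hκc, hAbel⟩ := h2
  obtain ⟨κ, Δ, hN⟩ := h4 hcx ν hν 𝔫 h𝔫 v₀ hv₀ a₀ n hn hspan hcong α hα
  obtain ⟨κ₁, hκ₁, hR⟩ := h5 hcx μ hμ μc hμc 𝔫 h𝔫 v₀ hv₀
  refine ⟨κ, Δ, κ₁ * κc ^ Fintype.card (InfinitePlace K),
    mul_ne_zero hκ₁ (pow_ne_zero _ hκc), ?_⟩
  intro Φ hΦ
  suffices h : ∃ f : G K → ℂ,
      IsASPair K μ ν 𝔫 v₀ n α κ Δ (κ₁ * κc ^ Fintype.card (InfinitePlace K)) Φ f ∧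
        IsSmoothInf K f by
    obtain ⟨f, hf, hs⟩ := h
    exact ⟨f, hf.cont, hf.supp, hf.bi_inv, hf.supp_at, hs, hf.n_int, hf.op⟩
  induction hΦ using Submodule.span_induction with
  | zero => exact ⟨0, IsASPair.zero, IsSmoothInf.zero⟩
  | add Φ₁ Φ₂ _ _ ih₁ ih₂ =>
    obtain ⟨f₁, hf₁, hs₁⟩ := ih₁
    obtain ⟨f₂, hf₂, hs₂⟩ := ih₂
    exact ⟨f₁ + f₂, hf₁.add hf₂, hs₁.add hs₂⟩
  | smul c Φ _ ih =>
    obtain ⟨f, hf, hs⟩ := ih
    exact ⟨c • f, hf.smul c, hs.smul c⟩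
  | mem Φ hΦ =>
    obtain ⟨A, β, hAfin, hAsym, hβ, hΦ⟩ := hΦ
    have hΦ' : Φ = pureCoord K A β := funext fun p => hΦ p.1 p.2
    subst hΦ'
    obtain ⟨f₀, hpair⟩ := h1 v₀ A ⟨hAfin, hAsym⟩
    choose F hF1 hFs hF2 hF3 using fun w : InfinitePlace K => hAbel (β w) (hβ w)
    obtain ⟨r1, r2, r3, r4⟩ := h3 𝔫 h𝔫 v₀ hv₀ f₀ F hpair.bi_inv hpair.fin_supp hF1
    have hNN := hN A β f₀ F hpair.bi_inv hpair.fin_supp hpair.n_int hF1 hF2
    refine ⟨pureFn K 𝔫 v₀ f₀ F, ?_, pureSmooth 𝔫 v₀ f₀ F hFs⟩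
    refine
      { fin_m := ⟨hAfin.toFinset, fun m hm x => ?_⟩
        int_x := fun m => ?_
        cont := r1
        supp := r2
        bi_inv := r3
        supp_at := r4
        n_integrable := fun g g' j => (hNN g g' j).1
        n_int := fun g g' j => (hNN g g' j).2
        op := fun φ hφ a b z₁ z₂ he hz₁ hz₂ hb g => ?_ }
    · rw [Set.Finite.mem_toFinset, Function.mem_support, not_not] at hm
      simp [pureCoord, hm]
    · have : (fun x : InfinitePlace K → ℝ × ℝ => pureCoord K A β (m, x))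
          = fun x => A m * ∏ w : InfinitePlace K, β w (x w) := rfl
      rw [this]
      refine Integrable.const_mul ?_ _
      exact Integrable.fintype_prod (f := β) (μ := fun _ => volume) fun w =>
        (hβ w).1.continuous.integrable_of_hasCompactSupport (hβ w).2.1
    · rw [hR A (fun w => κc * ∫ x : ℝ × ℝ, β w x) f₀ F hpair.bi_inv hpair.fin_supp hpair.eigen
        hF1 hF3 φ hφ a b z₁ z₂ he hz₁ hz₂ hb g, ftCoord_pure, Finset.prod_mul_distrib,
        Finset.prod_const, Finset.card_univ]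
      ring

end Fermat.Agent.LT.T3.AS

end
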