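import Fermat.Agent.LT.T3.H736.ASSpec

/-!
# Row LT, tower T3, station T3.18a `AbelSatakeC` -- THE PROVED TOP (sub-architect helper736)

OFF-MAIN.  `abelSatake_of : SatakeLocC K → AbelCplxC → PureRegC K → NIntC K → ROpC K →
AbelSatakeC K`, without any hole.

Proof.  `κ, Δ` come from `NIntC`, `κ₀ = κ₁ κ_ℂ^{r₂}` (`κ₁` from `ROpC` for the Haar measure `μ_ℂ`
of `AbelCplxC`).  For a symmetric pure tensor `Φ = A ⊗ ⊗_w β_w` the test function is the pure
tensor `pureFn f₀ F` (`f₀` from `SatakeLocC`, `F_w` from `AbelCplxC`); then the span, by linearity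
(integrability is carried along the induction).
-/

set_option autoImplicit false

open IsDedekindDomain NumberField MeasureTheory
open Fermat.Agent.LT.H556.A0

noncomputable section

namespace Fermat.Agent.LT.T3.AS

variable (K : Type) [Field K] [NumberField K]

/-- The induction predicate: `f` is a test function for `Φ` (with the integrability needed for
linearity). -/
structure IsASPair {mG : MeasurableSpace (G K)} {mA : MeasurableSpace (Adl K)}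
    (μ : Measure (G K)) (ν : Measure (Adl K)) (𝔫 : Ideal (𝓞 K)) (v₀ : HeightOneSpectrum (𝓞 K))
    (n : ℕ) (α : Kˣ) (κ : G K → G K → ℂ) (Δ : G K → G K → Coord K) (κ₀ : ℂ)
    (Φ : Coord K → ℂ) (f : G K → ℂ) : Prop where
  fin_m : ∃ M : Finset (ℤ × ℤ), ∀ m : ℤ × ℤ, m ∉ M →
    ∀ x : InfinitePlace K → ℝ × ℝ, Φ (m, x) = 0
  int_x : ∀ m : ℤ × ℤ, Integrable (fun x : InfinitePlace K → ℝ × ℝ => Φ (m, x))
  cont : Continuous f
  supp : HasCompactSupport f
  bi_inv : IsBiInv K 𝔫 f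
  supp_at : IsSuppAt K 𝔫 v₀ f
  n_integrable : ∀ (g g' : G K) (j : ℤ),
    Integrable (fun x => f (g⁻¹ * unip K x * torK K α ^ j * g')) ν
  n_int : ∀ (g g' : G K) (j : ℤ),
    ∫ x, f (g⁻¹ * unip K x * torK K α ^ j * g') ∂ν
      = κ g g' * Φ (Δ g g' + j • coordTor K n α)
  op : ∀ φ : G K → ℂ, IsSph0Level K 𝔫 φ → ∀ a b z₁ z₂ : ℂ, IsHeckeEigenAt φ v₀ a b →
    z₁ + z₂ = a → z₁ * z₂ = b → b ≠ 0 →
    ∀ g : G K, Rop K μ f φ g = κ₀ * ftCoord K Φ z₁ z₂ * φ g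

variable {K}

/-- The summand of `ftCoord` has finite support. -/
theorem ftCoord_summand_finite {Φ : Coord K → ℂ}
    (h : ∃ M : Finset (ℤ × ℤ), ∀ m : ℤ × ℤ, m ∉ M →
      ∀ x : InfinitePlace K → ℝ × ℝ, Φ (m, x) = 0) (z₁ z₂ : ℂ) :
    (Function.support fun m : ℤ × ℤ =>
      (∫ x : InfinitePlace K → ℝ × ℝ, Φ (m, x)) * z₁ ^ m.1 * z₂ ^ m.2).Finite := by
  obtain ⟨M, hM⟩ := h
  refine M.finite_toSet.subset fun m hm => ?_
  by_contra hmM
  apply hm
  have : (fun x : InfinitePlace K → ℝ × ℝ => Φ (m, x)) = fun _ => 0 := funext (hM m hmM)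
  simp [this]

theorem ftCoord_zero (z₁ z₂ : ℂ) : ftCoord K (0 : Coord K → ℂ) z₁ z₂ = 0 := by
  simp [ftCoord]

theorem ftCoord_add {Φ₁ Φ₂ : Coord K → ℂ}
    (h₁ : ∃ M : Finset (ℤ × ℤ), ∀ m : ℤ × ℤ, m ∉ M →
      ∀ x : InfinitePlace K → ℝ × ℝ, Φ₁ (m, x) = 0)
    (h₂ : ∃ M : Finset (ℤ × ℤ), ∀ m : ℤ × ℤ, m ∉ M →
      ∀ x : InfinitePlace K → ℝ × ℝ, Φ₂ (m, x) = 0)
    (i₁ : ∀ m : ℤ × ℤ, Integrable (fun x : InfinitePlace K → ℝ × ℝ => Φ₁ (m, x)))
    (i₂ : ∀ m : ℤ × ℤ, Integrable (fun x : InfinitePlace K → ℝ × ℝ => Φ₂ (m, x)))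
    (z₁ z₂ : ℂ) :
    ftCoord K (Φ₁ + Φ₂) z₁ z₂ = ftCoord K Φ₁ z₁ z₂ + ftCoord K Φ₂ z₁ z₂ := by
  unfold ftCoord
  rw [← finsum_add_distrib (ftCoord_summand_finite h₁ z₁ z₂) (ftCoord_summand_finite h₂ z₁ z₂)]
  refine finsum_congr fun m => ?_
  simp only [Pi.add_apply]
  rw [integral_add (i₁ m) (i₂ m)]
  ring

theorem ftCoord_smul (c : ℂ) (Φ : Coord K → ℂ) (z₁ z₂ : ℂ) :
    ftCoord K (c • Φ) z₁ z₂ = c * ftCoord K Φ z₁ z₂ := by
  unfold ftCoord
  rw [mul_finsum]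
  refine finsum_congr fun m => ?_
  simp only [Pi.smul_apply, smul_eq_mul]
  rw [integral_const_mul]
  ring

/-- `ftCoord` of a pure tensor. -/
theorem ftCoord_pure (A : ℤ × ℤ → ℂ) (β : InfinitePlace K → ℝ × ℝ → ℂ) (z₁ z₂ : ℂ) :
    ftCoord K (pureCoord K A β) z₁ z₂
      = laurent A z₁ z₂ * ∏ w : InfinitePlace K, ∫ x : ℝ × ℝ, β w x := by
  unfold ftCoord laurent
  rw [finsum_mul]
  refine finsum_congr fun m => ?_
  have : (fun x : InfinitePlace K → ℝ × ℝ => pureCoord K A β (m, x))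
      = fun x => A m * ∏ w : InfinitePlace K, β w (x w) := rfl
  rw [this, integral_const_mul, integral_fintype_prod_volume_eq_prod]
  ring


/-- The integrand of `Rop` is integrable. -/
theorem rop_integrable {mG : MeasurableSpace (G K)} [OpensMeasurableSpace (G K)]
    (μ : Measure (G K)) [IsFiniteMeasureOnCompacts μ] {f φ : G K → ℂ} (hφ : Continuous φ)
    (hf : Continuous f) (hs : HasCompactSupport f) (g : G K) :
    Integrable (fun h => φ (g * h) * f h) μ := by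
  refine Continuous.integrable_of_hasCompactSupport ?_ ?_
  · exact (hφ.comp (continuous_const.mul continuous_id)).mul hf
  · exact HasCompactSupport.mul_left (f := fun h => φ (g * h)) hs

section Linear

variable {mG : MeasurableSpace (G K)} {mA : MeasurableSpace (Adl K)}
  {μ : Measure (G K)} {ν : Measure (Adl K)} {𝔫 : Ideal (𝓞 K)} {v₀ : HeightOneSpectrum (𝓞 K)}
  {n : ℕ} {α : Kˣ} {κ : G K → G K → ℂ} {Δ : G K → G K → Coord K} {κ₀ : ℂ}

theorem IsASPair.zero : IsASPair K μ ν 𝔫 v₀ n α κ Δ κ₀ 0 0 where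
  fin_m := ⟨∅, fun _ _ _ => rfl⟩
  int_x := fun m => by
    have : (fun x : InfinitePlace K → ℝ × ℝ => (0 : Coord K → ℂ) (m, x)) = fun _ => 0 := rfl
    rw [this]
    exact integrable_zero _ _ _
  cont := continuous_const
  supp := HasCompactSupport.zero
  bi_inv := ⟨fun _ _ _ => ⟨rfl, rfl⟩, fun _ _ _ _ => ⟨rfl, rfl⟩⟩
  supp_at := fun _ hh => absurd rfl hh
  n_integrable := fun g g' j => by
    have : (fun x => (0 : G K → ℂ) (g⁻¹ * unip K x * torK K α ^ j * g')) = fun _ => 0 := rfl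
    rw [this]
    exact integrable_zero _ _ _
  n_int := fun g g' j => by simp
  op := fun φ _ a b z₁ z₂ _ _ _ _ g => by simp [Rop, ftCoord_zero]

theorem IsASPair.add [OpensMeasurableSpace (G K)] [IsFiniteMeasureOnCompacts μ]
    {Φ₁ Φ₂ : Coord K → ℂ} {f₁ f₂ : G K → ℂ}
    (h₁ : IsASPair K μ ν 𝔫 v₀ n α κ Δ κ₀ Φ₁ f₁) (h₂ : IsASPair K μ ν 𝔫 v₀ n α κ Δ κ₀ Φ₂ f₂) :
    IsASPair K μ ν 𝔫 v₀ n α κ Δ κ₀ (Φ₁ + Φ₂) (f₁ + f₂) where
  fin_m := by
    classical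
    obtain ⟨M₁, hM₁⟩ := h₁.fin_m
    obtain ⟨M₂, hM₂⟩ := h₂.fin_m
    refine ⟨M₁ ∪ M₂, fun m hm x => ?_⟩
    rw [Finset.mem_union, not_or] at hm
    simp [hM₁ m hm.1 x, hM₂ m hm.2 x]
  int_x := fun m => (h₁.int_x m).add (h₂.int_x m)
  cont := h₁.cont.add h₂.cont
  supp := h₁.supp.add h₂.supp
  bi_inv := by
    refine ⟨fun u hu h => ⟨?_, ?_⟩, fun w k hk h => ⟨?_, ?_⟩⟩
    · simp only [Pi.add_apply, (h₁.bi_inv.1 u hu h).1, (h₂.bi_inv.1 u hu h).1]
    · simp only [Pi.add_apply, (h₁.bi_inv.1 u hu h).2, (h₂.bi_inv.1 u hu h).2]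
    · simp only [Pi.add_apply, (h₁.bi_inv.2 w k hk h).1, (h₂.bi_inv.2 w k hk h).1]
    · simp only [Pi.add_apply, (h₁.bi_inv.2 w k hk h).2, (h₂.bi_inv.2 w k hk h).2]
  supp_at := fun h hh v hv i j => by
    by_cases h1 : f₁ h = 0
    · have h2 : f₂ h ≠ 0 := fun h2 => hh (by simp [h1, h2])
      exact h₂.supp_at h h2 v hv i j
    · exact h₁.supp_at h h1 v hv i j
  n_integrable := fun g g' j => (h₁.n_integrable g g' j).add (h₂.n_integrable g g' j)
  n_int := fun g g' j => by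
    simp only [Pi.add_apply]
    rw [integral_add (h₁.n_integrable g g' j) (h₂.n_integrable g g' j), h₁.n_int, h₂.n_int]
    ring
  op := fun φ hφ a b z₁ z₂ he hz₁ hz₂ hb g => by
    have e₁ := h₁.op φ hφ a b z₁ z₂ he hz₁ hz₂ hb g
    have e₂ := h₂.op φ hφ a b z₁ z₂ he hz₁ hz₂ hb g
    unfold Rop at e₁ e₂ ⊢
    have : (fun h => φ (g * h) * (f₁ + f₂) h)
        = fun h => φ (g * h) * f₁ h + φ (g * h) * f₂ h := by
      funext h
      simp only [Pi.add_apply]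
      ring
    rw [this, integral_add (rop_integrable μ hφ.cont h₁.cont h₁.supp g)
      (rop_integrable μ hφ.cont h₂.cont h₂.supp g), e₁, e₂,
      ftCoord_add h₁.fin_m h₂.fin_m h₁.int_x h₂.int_x]
    ring

theorem IsASPair.smul {Φ : Coord K → ℂ} {f : G K → ℂ}
    (h : IsASPair K μ ν 𝔫 v₀ n α κ Δ κ₀ Φ f) (c : ℂ) :
    IsASPair K μ ν 𝔫 v₀ n α κ Δ κ₀ (c • Φ) (c • f) where
  fin_m := by
    obtain ⟨M, hM⟩ := h.fin_m
    exact ⟨M, fun m hm x => by simp [hM m hm x]⟩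
  int_x := fun m => (h.int_x m).const_mul c
  cont := h.cont.const_smul c
  supp := h.supp.mono fun x hx => by
    rw [Function.mem_support] at hx ⊢
    intro h0
    exact hx (by simp [h0])
  bi_inv := by
    refine ⟨fun u hu y => ⟨?_, ?_⟩, fun w k hk y => ⟨?_, ?_⟩⟩
    · simp only [Pi.smul_apply, (h.bi_inv.1 u hu y).1]
    · simp only [Pi.smul_apply, (h.bi_inv.1 u hu y).2]
    · simp only [Pi.smul_apply, (h.bi_inv.2 w k hk y).1]
    · simp only [Pi.smul_apply, (h.bi_inv.2 w k hk y).2]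
  supp_at := fun y hy v hv i j => by
    have h1 : f y ≠ 0 := fun h1 => hy (by simp [h1])
    exact h.supp_at y h1 v hv i j
  n_integrable := fun g g' j => (h.n_integrable g g' j).const_mul c
  n_int := fun g g' j => by
    simp only [Pi.smul_apply, smul_eq_mul]
    rw [integral_const_mul, h.n_int]
    ring
  op := fun φ hφ a b z₁ z₂ he hz₁ hz₂ hb g => by
    have e := h.op φ hφ a b z₁ z₂ he hz₁ hz₂ hb g
    unfold Rop at e ⊢
    have : (fun y => φ (g * y) * (c • f) y) = fun y => c * (φ (g * y) * f y) := by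
      funext y
      simp only [Pi.smul_apply, smul_eq_mul]
      ring
    rw [this, integral_const_mul, e, ftCoord_smul]
    ring

end Linear

variable (K)

/-- **T3.18a, the top.**  The five leaves of `ASSpec.lean` give the Abel--Satake pair. -/
theorem abelSatake_of (h1 : SatakeLocC K) (h2 : AbelCplxC) (h3 : PureRegC K) (h4 : NIntC K)
    (h5 : ROpC K) : AbelSatakeC K := by
  let _ : MeasurableSpace (Adl K) := borel (Adl K)
  let _ : MeasurableSpace (G K) := borel (G K)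
  let _ : MeasurableSpace (GL (Fin 2) ℂ) := borel (GL (Fin 2) ℂ)
  have _ : BorelSpace (G K) := ⟨rfl⟩
  intro hcx μ hμ ν hν 𝔫 h𝔫 v₀ hv₀ a₀ n hn hspan hcong α hα
  obtain ⟨μc, hμc, κc, hκc, hAbel⟩ := h2
  obtain ⟨κ, Δ, hN⟩ := h4 hcx ν hν 𝔫 h𝔫 v₀ hv₀ a₀ n hn hspan hcong α hα
  obtain ⟨κ₁, hκ₁, hR⟩ := h5 hcx μ hμ μc hμc 𝔫 h𝔫 v₀ hv₀
  refine ⟨κ, Δ, κ₁ * κc ^ Fintype.card (InfinitePlace K),
    mul_ne_zero hκ₁ (pow_ne_zero _ hκc), ?_⟩
  intro Φ hΦ
  suffices h : ∃ f : G K → ℂ,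
      IsASPair K μ ν 𝔫 v₀ n α κ Δ (κ₁ * κc ^ Fintype.card (InfinitePlace K)) Φ f by
    obtain ⟨f, hf⟩ := h
    exact ⟨f, hf.cont, hf.supp, hf.bi_inv, hf.supp_at, hf.n_int, hf.op⟩
  induction hΦ using Submodule.span_induction with
  | zero => exact ⟨0, IsASPair.zero⟩
  | add Φ₁ Φ₂ _ _ ih₁ ih₂ =>
    obtain ⟨f₁, hf₁⟩ := ih₁
    obtain ⟨f₂, hf₂⟩ := ih₂
    exact ⟨f₁ + f₂, hf₁.add hf₂⟩
  | smul c Φ _ ih =>
    obtain ⟨f, hf⟩ := ih
    exact ⟨c • f, hf.smul c⟩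
  | mem Φ hΦ =>
    obtain ⟨A, β, hAfin, hAsym, hβ, hΦ⟩ := hΦ
    have hΦ' : Φ = pureCoord K A β := funext fun p => hΦ p.1 p.2
    subst hΦ'
    obtain ⟨f₀, hpair⟩ := h1 v₀ A ⟨hAfin, hAsym⟩
    choose F hF1 hF2 hF3 using fun w : InfinitePlace K => hAbel (β w) (hβ w)
    obtain ⟨r1, r2, r3, r4⟩ := h3 𝔫 h𝔫 v₀ hv₀ f₀ F hpair.bi_inv hpair.fin_supp hF1
    have hNN := hN A β f₀ F hpair.bi_inv hpair.fin_supp hpair.n_int hF1 hF2
    refine ⟨pureFn K 𝔫 v₀ f₀ F, ?_⟩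
    refine
      { fin_m := ⟨hAfin.toFinset, fun m hm x => ?_⟩
        int_x := fun m => ?_
        cont := r1
        supp := r2
        bi_inv := r3
        supp_at := r4
        n_integrable := fun g g' j => (hNN g g' j).1
        n_int := fun g g' j => (hNN g g' j).2
        op := fun φ hφ a b z₁ z₂ he hz₁ hz₂ hb g => ?_ }
    · rw [Set.Finite.mem_toFinset, Function.mem_support, not_not] at hm
      simp [pureCoord, hm]
    · have : (fun x : InfinitePlace K → ℝ × ℝ => pureCoord K A β (m, x))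
          = fun x => A m * ∏ w : InfinitePlace K, β w (x w) := rfl
      rw [this]
      refine Integrable.const_mul ?_ _
      exact Integrable.fintype_prod (f := β) (μ := fun _ => volume) fun w =>
        (hβ w).1.continuous.integrable_of_hasCompactSupport (hβ w).2.1
    · rw [hR A (fun w => κc * ∫ x : ℝ × ℝ, β w x) f₀ F hpair.bi_inv hpair.fin_supp hpair.eigen
        hF1 hF3 φ hφ a b z₁ z₂ he hz₁ hz₂ hb g, ftCoord_pure, Finset.prod_mul_distrib,
        Finset.prod_const, Finset.card_univ]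
      ring

end Fermat.Agent.LT.T3.AS

end
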